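/-
S59 PRE-WORK / GE9-ETA-ADJ3 (helper2), file 4: **the Atkin–Lehner isometry at level `N q²`** (for
the prime power `q²`, `q ∤ N`) and `⟨α₂ x, α₂ y⟩ = ⟨α₀ x, α₀ y⟩`.

`W = r₁ δ² = (q², b₁; N q², q² d₁)` (`q² d₁ − N b₁ = 1`) normalises `Γ₀(N q²)`:
`κ g = W g W⁻¹ = r₁ (δ² g δ⁻²) r₁⁻¹`, `κ ∘ κ = conj s`, `W² = q² s`, `s ∈ Γ₀(N q²)`.
By `GM/Theta/Outer.lamForm_isometry`, `ψ ↦ ψ ∘ κ` is an isometry of the unimodular cup form
`lamB (N q²)`; it maps `α₀ x = res' (res x)` to `α₂ x = res_δ' (res_δ x)` because `x` is invariant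
under conjugation by `r₁ ∈ Γ₀(N)`.
-/
import Fermat.Agent.GM.Theta.Outer

set_option autoImplicit false
set_option linter.unusedSectionVars false
set_option linter.unnecessarySeqFocus false

open scoped MatrixGroups
open CongruenceSubgroup Matrix Matrix.SpecialLinearGroup ModularCurve.Period
open P2MW.S_ModularForm_heckeT_slash_eq_self_of_mem_Gamma0.ModularForm.HeckeSlashInvariance
open P2MW.S_ModularForm_heckeT_slash_eq_self_of_mem_Gamma0.ModularForm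
open Fermat.Agent.S16_helper49 Fermat.Agent.GM.Amalgam Fermat.Agent.GM.B Fermat.Agent.GM.Bridge
  Fermat.Agent.GM.PD Fermat.Agent.GJ.J2.Lat Fermat.Agent.GM.Asm
open Fermat.Agent.GM.Theta.Outer

namespace Fermat.Agent.GE9.Adj3

variable {N q : ℕ} [Fact q.Prime]

/-! ### Bézout for `(q², N)` -/

theorem exists_bezout2 (hqN : ¬ q ∣ N) : ∃ p : ℤ × ℤ, (q : ℤ) * q * p.2 - N * p.1 = 1 := by
  have hcop : Nat.Coprime q N := (Nat.Prime.coprime_iff_not_dvd Fact.out).mpr hqN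
  have hcop2 : Nat.Coprime (q * q) N := Nat.Coprime.mul_left hcop hcop
  have h : IsCoprime ((q * q : ℕ) : ℤ) (N : ℤ) := Nat.isCoprime_iff_coprime.mpr hcop2
  obtain ⟨u, v, huv⟩ := h
  refine ⟨(-v, u), ?_⟩
  show (q : ℤ) * q * u - N * (-v) = 1
  push_cast at huv
  linarith

/-- a Bézout pair `(b₁, d₁)`, `q² d₁ − N b₁ = 1` -/
noncomputable def bez2 (hqN : ¬ q ∣ N) : ℤ × ℤ := (exists_bezout2 hqN).choose

theorem bez2_spec (hqN : ¬ q ∣ N) : (q : ℤ) * q * (bez2 hqN).2 - N * (bez2 hqN).1 = 1 :=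
  (exists_bezout2 hqN).choose_spec

section Mats

variable (N q) (b₁ d₁ : ℤ) (hbd : (q : ℤ) * q * d₁ - N * b₁ = 1)

/-- `r₁ = (1, b₁; N, q² d₁)` -/
def r1 : SL(2, ℤ) := mkZ 1 b₁ (N : ℤ) ((q : ℤ) * q * d₁) (by linarith)

/-- `γ₁ = (q², b₁; N, d₁)` -/
def g1 : SL(2, ℤ) := mkZ ((q : ℤ) * q) b₁ (N : ℤ) d₁ (by linarith)

/-- `s = (q² + N b₁, b₁ (1 + d₁); N q² (1 + d₁), N b₁ + q² d₁²)`, `W² = q² s` -/
def s2 : SL(2, ℤ) :=
  mkZ ((q : ℤ) * q + N * b₁) (b₁ * (1 + d₁)) ((N : ℤ) * q * q * (1 + d₁))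
    ((N : ℤ) * b₁ + q * q * d₁ ^ 2)
    (by linear_combination ((q : ℤ) * q * d₁ - N * b₁ + 1) * hbd)

theorem r1_mem : r1 N q b₁ d₁ hbd ∈ Gamma0 N := mem_Gamma0_of_dvd (by simp [r1])
theorem g1_mem : g1 N q b₁ d₁ hbd ∈ Gamma0 N := mem_Gamma0_of_dvd (by simp [g1])

theorem s2_mem : s2 N q b₁ d₁ hbd ∈ Gamma0 (N * q * q) :=
  mem_Gamma0_of_dvd ⟨1 + d₁, by simp [s2]⟩

/-- `δ² r₁ δ² = q² γ₁` -/
theorem dlt2_r1_dlt2 :
    dlt q * dlt q * embR (r1 N q b₁ d₁ hbd) * (dlt q * dlt q)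
      = zq q * zq q * embR (g1 N q b₁ d₁ hbd) := by
  have hq : q ≠ 0 := q_ne_zero'
  ext a b
  simp only [Matrix.GeneralLinearGroup.coe_mul, Matrix.mul_apply, Fin.sum_univ_two]
  fin_cases a <;> fin_cases b <;>
    simp [hq, zq, r1, g1, mkZ, Matrix.natCast_apply] <;> ring

/-- `W² = q² s` for `W = r₁ δ²` -/
theorem w2_mul_w2 :
    (embR (r1 N q b₁ d₁ hbd) * (dlt q * dlt q)) * (embR (r1 N q b₁ d₁ hbd) * (dlt q * dlt q))
      = zq q * zq q * embR (s2 N q b₁ d₁ hbd) := by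
  have hq : q ≠ 0 := q_ne_zero'
  ext a b
  simp only [Matrix.GeneralLinearGroup.coe_mul, Matrix.mul_apply, Fin.sum_univ_two]
  fin_cases a <;> fin_cases b <;>
    simp [hq, zq, r1, s2, mkZ, Matrix.natCast_apply] <;> ring

end Mats

/-! ### `δ²`-conjugation -/

/-- `g ↦ δ² g δ⁻²`, `Γ₀(N q²) → Γ₀(N)` -/
noncomputable def dd2 (N q : ℕ) [Fact q.Prime] : Gamma0 (N * q * q) →* Gamma0 N :=
  (degenDelta N q).comp (degenDelta (N * q) q)

/-- the inclusion `Γ₀(N q²) → Γ₀(N)` -/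
noncomputable def dd0 (N q : ℕ) : Gamma0 (N * q * q) →* Gamma0 N :=
  (degenOne N q).comp (degenOne (N * q) q)

theorem dd0_coe (g : Gamma0 (N * q * q)) : ((dd0 N q g : Gamma0 N) : SL(2, ℤ)) = (g : SL(2, ℤ)) := by
  show ((degenOne N q (degenOne (N * q) q g) : Gamma0 N) : SL(2, ℤ)) = _
  rw [degenOne_coe, degenOne_coe]

theorem dd2_rel (g : Gamma0 (N * q * q)) :
    dlt q * dlt q * embR (g : SL(2, ℤ))
      = embR ((dd2 N q g : Gamma0 N) : SL(2, ℤ)) * (dlt q * dlt q) := by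
  have h1 := dlt_rel_degenDelta (N := N * q) g
  have h2 := dlt_rel_degenDelta (N := N) (degenDelta (N * q) q g)
  show dlt q * dlt q * embR (g : SL(2, ℤ))
      = embR ((degenDelta N q (degenDelta (N * q) q g) : Gamma0 N) : SL(2, ℤ)) * (dlt q * dlt q)
  rw [mul_assoc, h1, ← mul_assoc, h2, mul_assoc]

/-- key entry relation: `δ² k = m δ²` forces `k₁₀ = q² m₁₀` -/
theorem lower_left_of_dlt2_rel (k m : SL(2, ℤ))
    (h : dlt q * dlt q * embR k = embR m * (dlt q * dlt q)) : k 1 0 = q * q * m 1 0 := by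
  have hq : q ≠ 0 := q_ne_zero'
  have h1 := congrArg (fun M : GL (Fin 2) ℝ => (M : Matrix (Fin 2) (Fin 2) ℝ) 1 0) h
  simp only [Matrix.GeneralLinearGroup.coe_mul, Matrix.mul_apply, Fin.sum_univ_two] at h1
  simp [hq] at h1
  have h2 : ((k 1 0 : ℤ) : ℝ) = ((q * q * m 1 0 : ℤ) : ℝ) := by
    push_cast
    linarith
  exact_mod_cast h2

theorem mem_Gamma0_of_dlt2_rel (k m : SL(2, ℤ)) (hm : m ∈ Gamma0 N)
    (h : dlt q * dlt q * embR k = embR m * (dlt q * dlt q)) : k ∈ Gamma0 (N * q * q) := by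
  apply mem_Gamma0_of_dvd
  rw [lower_left_of_dlt2_rel k m h]
  obtain ⟨t, ht⟩ := dvd_of_mem_Gamma0 (⟨m, hm⟩ : Gamma0 N)
  have ht' : m 1 0 = N * t := ht
  exact ⟨t, by rw [ht']; push_cast; ring⟩

theorem zq2_comm (X : GL (Fin 2) ℝ) : zq q * zq q * X = X * (zq q * zq q) := by
  rw [mul_assoc, zq_comm q X, ← mul_assoc, zq_comm q X, mul_assoc]

section W

variable (hqN : ¬ q ∣ N)

/-- `r₁ ∈ Γ₀(N)` for the chosen Bézout pair -/
noncomputable def rOne : Gamma0 N :=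
  ⟨r1 N q (bez2 hqN).1 (bez2 hqN).2 (bez2_spec hqN), r1_mem N q _ _ _⟩

/-- `γ₁ ∈ Γ₀(N)` -/
noncomputable def gOne : Gamma0 N :=
  ⟨g1 N q (bez2 hqN).1 (bez2 hqN).2 (bez2_spec hqN), g1_mem N q _ _ _⟩

/-- the Atkin–Lehner matrix `W = r₁ δ²` -/
noncomputable def w2Mat : GL (Fin 2) ℝ := embR ((rOne hqN : Gamma0 N) : SL(2, ℤ)) * (dlt q * dlt q)

/-- `δ² (r₁ (δ² g δ⁻²) r₁⁻¹) = (γ₁ g γ₁⁻¹) δ²` -/
theorem kap_rel (g : Gamma0 (N * q * q)) :
    dlt q * dlt q * embR ((rOne hqN * dd2 N q g * (rOne hqN)⁻¹ : Gamma0 N) : SL(2, ℤ))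
      = embR ((gOne hqN * dd0 N q g * (gOne hqN)⁻¹ : Gamma0 N) : SL(2, ℤ)) * (dlt q * dlt q) := by
  have h1 := dlt2_r1_dlt2 N q (bez2 hqN).1 (bez2 hqN).2 (bez2_spec hqN)
  have h2 := dd2_rel (N := N) g
  have hZc := zq2_comm (q := q)
  generalize zq q * zq q = Z at h1 hZc
  generalize dlt q * dlt q = D at h1 h2 ⊢
  have e1 : embR ((rOne hqN : Gamma0 N) : SL(2, ℤ))
      = D⁻¹ * (Z * embR ((gOne hqN : Gamma0 N) : SL(2, ℤ))) * D⁻¹ := by
    rw [eq_mul_inv_iff_mul_eq, eq_inv_mul_iff_mul_eq, ← mul_assoc]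
    exact h1
  have e2 : embR ((dd2 N q g : Gamma0 N) : SL(2, ℤ)) = D * embR (g : SL(2, ℤ)) * D⁻¹ := by
    rw [eq_mul_inv_iff_mul_eq]; exact h2.symm
  have hz : ∀ X : GL (Fin 2) ℝ, Z * X * Z⁻¹ = X := fun X => by
    rw [hZc, mul_inv_cancel_right]
  simp only [Subgroup.coe_mul, Subgroup.coe_inv, map_mul, map_inv, dd0_coe]
  rw [e1, e2]
  calc _ = Z * (embR ((gOne hqN : Gamma0 N) : SL(2, ℤ)) * embR (g : SL(2, ℤ)) *
        (embR ((gOne hqN : Gamma0 N) : SL(2, ℤ)))⁻¹) * Z⁻¹ * D := by group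
    _ = _ := by rw [hz]

/-- **conjugation by `W`** as an endomorphism of `Γ₀(N q²)` -/
noncomputable def w2Hom : Gamma0 (N * q * q) →* Gamma0 (N * q * q) :=
  MonoidHom.codRestrict
    ((Gamma0 N).subtype.comp ((MulAut.conj (rOne hqN)).toMonoidHom.comp (dd2 N q)))
    (Gamma0 (N * q * q))
    (fun g => mem_Gamma0_of_dlt2_rel _ _ (SetLike.coe_mem _) (kap_rel hqN g))

theorem w2Hom_coe (g : Gamma0 (N * q * q)) :
    ((w2Hom hqN g : Gamma0 (N * q * q)) : SL(2, ℤ))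
      = ((rOne hqN * dd2 N q g * (rOne hqN)⁻¹ : Gamma0 N) : SL(2, ℤ)) := rfl

theorem w2Mat_rel (g : Gamma0 (N * q * q)) :
    w2Mat hqN * embR (g : SL(2, ℤ))
      = embR ((w2Hom hqN g : Gamma0 (N * q * q)) : SL(2, ℤ)) * w2Mat hqN := by
  have h2 := dd2_rel (N := N) g
  rw [w2Hom_coe]
  unfold w2Mat
  simp only [Subgroup.coe_mul, Subgroup.coe_inv, map_mul, map_inv]
  rw [mul_assoc, h2]
  group

/-- `s ∈ Γ₀(N q²)` -/
noncomputable def sTwo : Gamma0 (N * q * q) :=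
  ⟨s2 N q (bez2 hqN).1 (bez2 hqN).2 (bez2_spec hqN), s2_mem N q _ _ _⟩

theorem w2Mat_mul_w2Mat :
    w2Mat hqN * w2Mat hqN = zq q * zq q * embR ((sTwo hqN : Gamma0 (N * q * q)) : SL(2, ℤ)) :=
  w2_mul_w2 N q (bez2 hqN).1 (bez2 hqN).2 (bez2_spec hqN)

/-- `κ (κ g) = s g s⁻¹` -/
theorem w2Hom_w2Hom (g : Gamma0 (N * q * q)) :
    w2Hom hqN (w2Hom hqN g) = sTwo hqN * g * (sTwo hqN)⁻¹ := by
  rw [eq_mul_inv_iff_mul_eq]
  apply Subtype.ext
  apply embR_injective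
  rw [Subgroup.coe_mul, Subgroup.coe_mul, map_mul, map_mul]
  have h1 := w2Mat_rel hqN g
  have h2 := w2Mat_rel hqN (w2Hom hqN g)
  have h3 := w2Mat_mul_w2Mat hqN
  have h4 : w2Mat hqN * w2Mat hqN * embR (g : SL(2, ℤ))
      = embR ((w2Hom hqN (w2Hom hqN g) : Gamma0 (N * q * q)) : SL(2, ℤ))
        * (w2Mat hqN * w2Mat hqN) := by
    rw [mul_assoc, h1, ← mul_assoc, h2, mul_assoc]
  rw [h3] at h4
  have hZc := zq2_comm (q := q)
  generalize zq q * zq q = Z at h4 hZc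
  rw [mul_assoc Z, ← mul_assoc (embR _) Z, ← hZc, mul_assoc Z] at h4
  exact (mul_left_cancel h4).symm

theorem w2Hom_surjective : Function.Surjective (w2Hom hqN) := by
  intro γ
  refine ⟨w2Hom hqN ((sTwo hqN)⁻¹ * γ * sTwo hqN), ?_⟩
  rw [w2Hom_w2Hom]
  group

/-- the coset system of `W` -/
noncomputable def w2Sys : CosetSys embR (Gamma0 (N * q * q)) (Gamma0 (N * q * q)) :=
  CosetSys.single embR (w2Mat hqN) (w2Hom hqN) (w2Mat_rel hqN)

/-- the Atkin–Lehner operator of level `N q²` on `Hom(Γ₀(N q²), A)` -/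
noncomputable def w2Op (A : Type*) [AddCommGroup A] :
    (Additive (Gamma0 (N * q * q)) →+ A) →+ (Additive (Gamma0 (N * q * q)) →+ A) :=
  (w2Sys hqN).op A

theorem w2Op_apply {A : Type*} [AddCommGroup A] (z : Additive (Gamma0 (N * q * q)) →+ A)
    (g : Gamma0 (N * q * q)) :
    w2Op hqN A z (Additive.ofMul g) = z (Additive.ofMul (w2Hom hqN g)) :=
  CosetSys.single_op_apply _ _ _ z g

/-- on the parabolic lattices -/
noncomputable def w2P (A : Type*) [AddCommGroup A] :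
    parabolicHoms ℤ (Gamma0 (N * q * q)) A →+ parabolicHoms ℤ (Gamma0 (N * q * q)) A :=
  opPar (w2Sys hqN) A

/-- **`W (res' (res φ)) = res_δ' (res_δ φ)`** -/
theorem w2Op_res_res {A : Type*} [AddCommGroup A] (φ : Additive (Gamma0 N) →+ A) :
    w2Op hqN A (res A (N * q) q (res A N q φ)) = resD A (N * q) q (resD A N q φ) := by
  refine AddMonoidHom.ext fun g => ?_
  obtain ⟨g, rfl⟩ : ∃ g' : Gamma0 (N * q * q), Additive.ofMul g' = g := ⟨Additive.toMul g, rfl⟩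
  rw [w2Op_apply, res_apply, res_apply, resD_apply, resD_apply]
  have e : degenOne N q (degenOne (N * q) q (w2Hom hqN g))
      = rOne hqN * dd2 N q g * (rOne hqN)⁻¹ := by
    apply Subtype.ext
    rw [degenOne_coe, degenOne_coe, w2Hom_coe]
  rw [e, ofMul_mul, ofMul_mul, ofMul_inv, map_add, map_add, map_neg]
  rw [add_neg_cancel_comm]
  rfl

/-! ### the rational matrix and the isometry -/

/-- the rational Atkin–Lehner matrix `W = r₁ δ²` -/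
noncomputable def w2Q : GL(2, ℚ)⁺ :=
  Fermat.Agent.GM.Theta.emb ((rOne hqN : Gamma0 N) : SL(2, ℤ)) * (dQ q q_ne_zero' * dQ q q_ne_zero')

theorem toR_w2Q : toR (w2Q hqN) = w2Mat hqN := by
  unfold w2Q w2Mat
  rw [map_mul, map_mul, toR_emb, toR_dQ]

theorem w2Q_rel (g : Gamma0 (N * q * q)) :
    w2Q hqN * Fermat.Agent.GM.Theta.emb (g : SL(2, ℤ))
      = Fermat.Agent.GM.Theta.emb ((w2Hom hqN g : Gamma0 (N * q * q)) : SL(2, ℤ)) * w2Q hqN := by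
  apply toR_injective
  rw [map_mul, map_mul, toR_w2Q, toR_emb, toR_emb]
  exact w2Mat_rel hqN g

attribute [local instance] quotFintype quotDecEq

variable [NeZero N] [NeZero (N * q)] [NeZero (N * q * q)]

/-- **`W` is an isometry of the unimodular cup form of level `N q²`** -/
theorem lamB_w2P_w2P (x y : Lam (N * q * q)) :
    lamB (N * q * q) (w2P hqN ℤ x) (w2P hqN ℤ y) = lamB (N * q * q) x y :=
  lamForm_isometry (w2Q hqN) (w2Hom hqN) (w2Q_rel hqN) (w2Hom_surjective hqN)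
    (Fermat.Agent.GM.Asm.neg_one_mem_Gamma0 (N * q * q)) (w2Op hqN ℤ) (fun ψ g => w2Op_apply hqN ψ g) (w2P hqN ℤ)
    (fun _ => rfl) x y

/-- `W (α₀ x) = α₂ x` on the lattices -/
theorem w2P_resP_resP (x : Lam N) :
    w2P hqN ℤ (resP ℤ (N * q) q (resP ℤ N q x)) = resDP ℤ (N * q) q (resDP ℤ N q x) :=
  Subtype.ext (w2Op_res_res hqN x.1)

/-- **`⟨α₂ x, α₂ y⟩ = ⟨α₀ x, α₀ y⟩`** -/
theorem lamB_alpha2_alpha2 (hqN : ¬ q ∣ N) (x y : Lam N) :
    lamB (N * q * q) (resDP ℤ (N * q) q (resDP ℤ N q x)) (resDP ℤ (N * q) q (resDP ℤ N q y))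
      = lamB (N * q * q) (resP ℤ (N * q) q (resP ℤ N q x)) (resP ℤ (N * q) q (resP ℤ N q y)) := by
  rw [← w2P_resP_resP hqN, ← w2P_resP_resP hqN, lamB_w2P_w2P hqN]

end W

end Fermat.Agent.GE9.Adj3
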