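/-
S59 PRE-WORK / GE9-ETA-ADJ3 (helper2), file 2: **the transfer `Γ₀(M q) → Γ₀(M)` for `q ∣ M`**.

For `q ∣ M` the index of `Γ₀(M q)` in `Γ₀(M)` is `q`, with transversal `t_j = (1, 0; M j, 1)`,
`j ∈ ℤ/q`.

* `coresSys2 hqM : CosetSys embR (Γ₀(M q)) (Γ₀(M))`, `cores2`, `cores2P` (on the parabolic lattices);
* `cores2_comp_res : cores2 ∘ res = q`;
* `lamB_resP_cores2P : ⟨res u, z⟩_{M q} = ⟨u, cores2 z⟩_M` for the unimodular cup forms.
-/
import Fermat.Agent.GE9.Adj3.OfDistinct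
import Fermat.Agent.GM.Asm.DAsm

set_option autoImplicit false
set_option linter.unusedSectionVars false

open scoped MatrixGroups
open CongruenceSubgroup Matrix Matrix.SpecialLinearGroup ModularCurve.Period
open Fermat.Agent.S16_helper49 Fermat.Agent.GM.Amalgam Fermat.Agent.GM.B Fermat.Agent.GM.Bridge
  Fermat.Agent.GM.PD Fermat.Agent.GJ.J2.Lat Fermat.Agent.GM.Asm

namespace Fermat.Agent.GE9.Adj3

variable {M q : ℕ} [Fact q.Prime]

instance neZero_q : NeZero q := ⟨(Fact.out : q.Prime).ne_zero⟩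

/-- `t_j = (1, 0; M j, 1)` -/
def tRep (M : ℕ) (j : ℕ) : SL(2, ℤ) := mkZ 1 0 ((M : ℤ) * j) 1 (by ring)

theorem tRep_mem (M j : ℕ) : tRep M j ∈ Gamma0 M :=
  mem_Gamma0_of_dvd (by simp [tRep])

/-- the lower left entry of `t_j g t_{j'}⁻¹` -/
theorem tRep_conj_entry (g : SL(2, ℤ)) (j j' : ℕ) :
    (tRep M j * g * (tRep M j')⁻¹) 1 0
      = (M : ℤ) * j * g 0 0 + g 1 0 - (M : ℤ) * j' * ((M : ℤ) * j * g 0 1 + g 1 1) := by
  rw [Matrix.SpecialLinearGroup.SL2_inv_expl]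
  simp only [Matrix.SpecialLinearGroup.coe_mul, Matrix.mul_apply, Fin.sum_univ_two]
  simp [tRep, mkZ]
  ring

/-- `c / M` for `g = (a, b; c, d) ∈ Γ₀(M)` -/
noncomputable def cQuot (g : Gamma0 M) : ℤ := (dvd_of_mem_Gamma0 g).choose

theorem cQuot_spec (g : Gamma0 M) : (g : SL(2, ℤ)) 1 0 = (M : ℤ) * cQuot g :=
  (dvd_of_mem_Gamma0 g).choose_spec

/-- the action of `Γ₀(M)` on the transversal: `j ↦ (j a + c / M) a` -/
noncomputable def sig2 (g : Gamma0 M) (x : ZMod q) : ZMod q :=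
  (x * (((g : SL(2, ℤ)) 0 0 : ℤ) : ZMod q) + ((cQuot g : ℤ) : ZMod q)) *
    (((g : SL(2, ℤ)) 0 0 : ℤ) : ZMod q)

theorem tRep_conj_mem (hqM : q ∣ M) (g : Gamma0 M) (x : ZMod q) :
    tRep M x.val * (g : SL(2, ℤ)) * (tRep M (sig2 g x).val)⁻¹ ∈ Gamma0 (M * q) := by
  apply mem_Gamma0_of_dvd
  rw [tRep_conj_entry, cQuot_spec g]
  have hMq : ((M : ℤ) : ZMod q) = 0 := by
    rw [Int.cast_natCast, ZMod.natCast_eq_zero_iff]
    exact hqM
  have hdet := det_eq_one (g : SL(2, ℤ))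
  have had : ((((g : SL(2, ℤ)) 0 0 : ℤ) : ZMod q)) * ((((g : SL(2, ℤ)) 1 1 : ℤ) : ZMod q)) = 1 := by
    have := congrArg (fun t : ℤ => (t : ZMod q)) hdet
    simp only [Int.cast_sub, Int.cast_mul, Int.cast_one] at this
    rw [cQuot_spec g] at this
    push_cast at this
    rw [show ((M : ℕ) : ZMod q) = 0 from by exact_mod_cast hMq] at this
    simpa using this
  have key : (q : ℤ) ∣ ((x.val : ℤ) * (g : SL(2, ℤ)) 0 0 + cQuot g
      - ((sig2 g x).val : ℤ) * ((M : ℤ) * x.val * (g : SL(2, ℤ)) 0 1 + (g : SL(2, ℤ)) 1 1)) := by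
    rw [← ZMod.intCast_zmod_eq_zero_iff_dvd]
    push_cast
    rw [ZMod.natCast_zmod_val, ZMod.natCast_zmod_val,
      show ((M : ℕ) : ZMod q) = 0 from by exact_mod_cast hMq]
    unfold sig2
    linear_combination (-(x * (((g : SL(2, ℤ)) 0 0 : ℤ) : ZMod q) + ((cQuot g : ℤ) : ZMod q))) * had
  obtain ⟨t, ht⟩ := key
  refine ⟨t, ?_⟩
  push_cast
  linear_combination (M : ℤ) * ht

/-- the cocycle of the transfer -/
noncomputable def c2 (hqM : q ∣ M) (g : Gamma0 M) (x : ZMod q) : Gamma0 (M * q) :=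
  ⟨tRep M x.val * (g : SL(2, ℤ)) * (tRep M (sig2 g x).val)⁻¹, tRep_conj_mem hqM g x⟩

theorem tRep_distinct [NeZero M] (i j : ZMod q)
    (h : tRep M i.val * (tRep M j.val)⁻¹ ∈ Gamma0 (M * q)) : i = j := by
  have h1 := dvd_of_mem_Gamma0 (⟨_, h⟩ : Gamma0 (M * q))
  have e : (tRep M i.val * (tRep M j.val)⁻¹) 1 0 = (M : ℤ) * ((i.val : ℤ) - j.val) := by
    have := tRep_conj_entry (M := M) 1 i.val j.val
    rw [mul_one] at this
    rw [this]
    simp
    ring
  change ((M * q : ℕ) : ℤ) ∣ (tRep M i.val * (tRep M j.val)⁻¹) 1 0 at h1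
  rw [e] at h1
  have hM : (M : ℤ) ≠ 0 := by exact_mod_cast NeZero.ne M
  have h2 : (q : ℤ) ∣ (i.val : ℤ) - j.val := by
    have : (M : ℤ) * q ∣ (M : ℤ) * ((i.val : ℤ) - j.val) := by simpa using h1
    exact (mul_dvd_mul_iff_left hM).1 this
  have h3 := (ZMod.intCast_zmod_eq_zero_iff_dvd _ q).2 h2
  push_cast at h3
  rw [ZMod.natCast_zmod_val, ZMod.natCast_zmod_val] at h3
  exact sub_eq_zero.1 h3

/-- **the coset system of the transfer `cores2 : Hom(Γ₀(M q)) → Hom(Γ₀(M))`**, `q ∣ M` -/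
noncomputable def coresSys2 [NeZero M] (hqM : q ∣ M) : CosetSys embR (Gamma0 (M * q)) (Gamma0 M) :=
  ofDistinct embR_injective (fun x : ZMod q => embR (tRep M x.val)) sig2 (c2 hqM)
    (fun g x => by
      show embR (tRep M x.val) * embR (g : SL(2, ℤ))
        = embR (tRep M x.val * (g : SL(2, ℤ)) * (tRep M (sig2 g x).val)⁻¹)
          * embR (tRep M (sig2 g x).val)
      rw [← map_mul, ← map_mul, inv_mul_cancel_right])
    (fun i j γ h => by
      have h1 : tRep M i.val = (γ : SL(2, ℤ)) * tRep M j.val := by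
        apply embR_injective
        rw [map_mul]
        exact h
      refine tRep_distinct (M := M) i j ?_
      rw [h1, mul_inv_cancel_right]
      exact γ.2)

theorem coresSys2_a [NeZero M] (hqM : q ∣ M) (x : ZMod q) :
    (coresSys2 hqM).a x = embR (tRep M x.val) := rfl

section Hom

variable (A : Type*) [AddCommGroup A]

/-- the transfer `Hom(Γ₀(M q), A) → Hom(Γ₀(M), A)`, `q ∣ M` -/
noncomputable def cores2 [NeZero M] (hqM : q ∣ M) :
    (Additive (Gamma0 (M * q)) →+ A) →+ (Additive (Gamma0 M) →+ A) :=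
  (coresSys2 hqM).op A

variable {A}

/-- **`cores2 ∘ res = q`** -/
theorem cores2_comp_res [NeZero M] (hqM : q ∣ M) (φ : Additive (Gamma0 M) →+ A) :
    cores2 A hqM (res A M q φ) = q • φ := by
  show (coresSys2 hqM).op A ((resSys M q).op A φ) = q • φ
  rw [← CosetSys.op_comp]
  rw [CosetSys.op_eq_card_smul ((resSys M q).comp (coresSys2 hqM)) embR_injective 1
    (fun x => by rw [one_mul, mul_one])
    (fun p : Unit × ZMod q => ⟨tRep M p.2.val, tRep_mem M p.2.val⟩) ?_ φ]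
  · congr 1
    show Fintype.card (Unit × ZMod q) = q
    rw [Fintype.card_prod, Fintype.card_unit, one_mul, ZMod.card]
  · intro p
    show 1 * embR (tRep M p.2.val) = 1 * embR (tRep M p.2.val)
    rfl

end Hom

/-- the transfer on the parabolic lattices -/
noncomputable def cores2P (A : Type*) [AddCommGroup A] [NeZero M] (hqM : q ∣ M) :
    parabolicHoms ℤ (Gamma0 (M * q)) A →+ parabolicHoms ℤ (Gamma0 M) A :=
  opPar (coresSys2 hqM) A

@[simp] theorem cores2P_coe {A : Type*} [AddCommGroup A] [NeZero M] (hqM : q ∣ M)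
    (ψ : parabolicHoms ℤ (Gamma0 (M * q)) A) :
    ((cores2P A hqM ψ : parabolicHoms ℤ (Gamma0 M) A) : Additive (Gamma0 M) →+ A)
      = cores2 A hqM ψ.1 := rfl

attribute [local instance] quotFintype quotDecEq

/-- **inner adjointness** `⟨res u, z⟩_{M q} = ⟨u, cores2 z⟩_M`, `q ∣ M` -/
theorem lamB_resP_cores2P [NeZero M] [NeZero (M * q)] (hqM : q ∣ M) (u : Lam M)
    (z : Lam (M * q)) :
    lamB (M * q) (resP ℤ M q u) z = lamB M u (cores2P ℤ hqM z) := by
  have hle := Gamma0_mul_le M q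
  have : Nonempty (coresSys2 hqM).ι := ⟨(0 : ZMod q)⟩
  refine lamForm_res_cores hle (neg_one_mem_Gamma0 (M * q)) embR_injective (coresSys2 hqM)
    (fun i : ZMod q => tRep M i.val) (fun i => rfl) (fun i => tRep_mem M _)
    (fun i j h => tRep_distinct i j h)
    u (resP ℤ M q u) (fun γ' => ?_) z (cores2P ℤ hqM z) rfl
  rw [resP_coe, res_apply]
  congr 2
  exact Subtype.ext (degenOne_coe γ')

end Fermat.Agent.GE9.Adj3
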