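/-
S59 PRE-WORK / GE9-ETA-ADJ3 (helper2), file 3: **the `U_q^t`-identity on old classes**

    cores2 ∘ res_δ' ∘ res_δ + res = res_δ ∘ T_q      on `Hom(Γ₀(N), A) → Hom(Γ₀(N q), A)`, `q ∤ N`,

where `res_δ' : Hom(Γ₀(N q)) → Hom(Γ₀(N q²))` is the twisted restriction at level `N q` and
`cores2` the transfer `Hom(Γ₀(N q²)) → Hom(Γ₀(N q))` of `Sys2`.

Coset form: the `q + 1` cosets `Γ₀(N) α_x δ` (`x ∈ P¹(𝔽_q)`) are `Γ₀(N) · q` (`x = 0`) and the `q`
cosets `Γ₀(N) δ² t_j` (`j ∈ ℤ/q`): `α_∞ δ = δ²`, and for `j ≠ 0`, `k = (N j)⁻¹ mod q`,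
`α_k δ = γ δ² t_j` with `γ = ((1 − k N j)/q, k; −N j, q) ∈ Γ₀(N)`.
-/
import Fermat.Agent.GE9.Adj3.Sys2
import Fermat.Agent.GM.B5.Sum
import Fermat.Agent.GM.B.Distinct
import Fermat.Agent.GM.B.AtkinLehner

set_option autoImplicit false
set_option linter.unusedSectionVars false

open scoped MatrixGroups
open CongruenceSubgroup Matrix Matrix.SpecialLinearGroup ModularCurve.Period
open P2MW.S_ModularForm_heckeT_slash_eq_self_of_mem_Gamma0.ModularForm.HeckeSlashInvariance
open P2MW.S_ModularForm_heckeT_slash_eq_self_of_mem_Gamma0.ModularForm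
open Fermat.Agent.S16_helper49 Fermat.Agent.GM.Amalgam Fermat.Agent.GM.B Fermat.Agent.GM.B5
open scoped OnePoint

namespace Fermat.Agent.GE9.Adj3

variable {N q : ℕ} [Fact q.Prime]

/-- the system of `res` with the central representative `q` -/
noncomputable def resZSys (N q : ℕ) [Fact q.Prime] : CosetSys embR (Gamma0 N) (Gamma0 (N * q)) :=
  CosetSys.single embR (zq q) (degenOne N q)
    (fun g => by rw [degenOne_coe, zq_comm])

theorem resZSys_op (A : Type*) [AddCommGroup A] (φ : Additive (Gamma0 N) →+ A) :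
    (resZSys N q).op A φ = res A N q φ := by
  refine AddMonoidHom.ext fun g => ?_
  obtain ⟨g, rfl⟩ : ∃ g' : Gamma0 (N * q), Additive.ofMul g' = g := ⟨Additive.toMul g, rfl⟩
  rw [res_apply]
  exact CosetSys.single_op_apply _ _ _ φ g

/-- the left system: `cores2 ∘ res_δ' ∘ res_δ`, representatives `δ² t_j` -/
noncomputable def uLSys [NeZero (N * q)] :
    CosetSys embR (Gamma0 N) (Gamma0 (N * q)) :=
  (resDSys N q).comp ((resDSys (N * q) q).comp (coresSys2 (dvd_mul_left q N)))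

/-- the right system: `res_δ ∘ T_q`, representatives `α_x δ` -/
noncomputable def uRSys (hqN : ¬ q ∣ N) : CosetSys embR (Gamma0 N) (Gamma0 (N * q)) :=
  (heckeSys hqN).comp (resDSys N q)

theorem uRSys_distinct (hqN : ¬ q ∣ N) : (uRSys hqN).Distinct := by
  rintro ⟨x, ⟨⟩⟩ ⟨y, ⟨⟩⟩ γ h
  have h1 : heckeRep q x * dlt q = embR ((γ : Gamma0 N) : SL(2, ℤ)) * (heckeRep q y * dlt q) := h
  rw [← mul_assoc] at h1
  have h2 := mul_right_cancel h1
  have := heckeSys_distinct hqN x y γ h2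
  rw [this]

/-! ### the index map -/

/-- `j = 0 ↦ ∞`, `j ≠ 0 ↦ (N j)⁻¹`, and the extra point `↦ 0` -/
noncomputable def fU (N q : ℕ) [Fact q.Prime] :
    (Unit × (Unit × ZMod q)) ⊕ Unit → OnePoint (ZMod q) × Unit
  | Sum.inl p => (if p.2.2 = 0 then ∞ else ((((N : ZMod q) * p.2.2)⁻¹ : ZMod q) : OnePoint (ZMod q)), ())
  | Sum.inr _ => (((0 : ZMod q) : OnePoint (ZMod q)), ())

theorem natCast_ne_zero_of_not_dvd (hqN : ¬ q ∣ N) : (N : ZMod q) ≠ 0 := by
  intro h
  exact hqN ((ZMod.natCast_eq_zero_iff N q).mp h)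

theorem fU_injective (hqN : ¬ q ∣ N) : Function.Injective (fU N q) := by
  have hN := natCast_ne_zero_of_not_dvd hqN
  rintro (⟨⟨⟩, ⟨⟩, j⟩ | ⟨⟩) (⟨⟨⟩, ⟨⟩, j'⟩ | ⟨⟩) h
  · simp only [fU] at h
    have h1 := congrArg Prod.fst h
    simp only at h1
    by_cases hj : j = 0 <;> by_cases hj' : j' = 0
    · rw [hj, hj']
    · rw [if_pos hj, if_neg hj'] at h1
      exact absurd h1.symm (OnePoint.coe_ne_infty _)
    · rw [if_neg hj, if_pos hj'] at h1
      exact absurd h1 (OnePoint.coe_ne_infty _)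
    · rw [if_neg hj, if_neg hj'] at h1
      have h2 := OnePoint.coe_injective h1
      have h3 := inv_injective h2
      have h4 := mul_left_cancel₀ hN h3
      rw [h4]
  · simp only [fU] at h
    have h1 := congrArg Prod.fst h
    simp only at h1
    by_cases hj : j = 0
    · rw [if_pos hj] at h1
      exact absurd h1.symm (OnePoint.coe_ne_infty _)
    · rw [if_neg hj] at h1
      have h2 := OnePoint.coe_injective h1
      exact absurd (inv_eq_zero.mp h2) (mul_ne_zero hN hj)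
  · simp only [fU] at h
    have h1 := congrArg Prod.fst h
    simp only at h1
    by_cases hj : j' = 0
    · rw [if_pos hj] at h1
      exact absurd h1 (OnePoint.coe_ne_infty _)
    · rw [if_neg hj] at h1
      have h2 := OnePoint.coe_injective h1
      exact absurd (inv_eq_zero.mp h2.symm) (mul_ne_zero hN hj)
  · rfl

theorem card_uIdx : Fintype.card ((Unit × (Unit × ZMod q)) ⊕ Unit)
    = Fintype.card (OnePoint (ZMod q) × Unit) := by
  have : Fintype.card (OnePoint (ZMod q)) = Fintype.card (Option (ZMod q)) := rfl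
  rw [Fintype.card_sum, Fintype.card_prod, Fintype.card_prod, Fintype.card_prod, Fintype.card_unit,
    this, Fintype.card_option, ZMod.card]
  ring

/-! ### the matrices `γ_j` -/

theorem exists_gamU (hqN : ¬ q ∣ N) (j : ZMod q) (hj : j ≠ 0) :
    ∃ e : ℤ, (q : ℤ) * e = 1 - ((((N : ZMod q) * j)⁻¹ : ZMod q).val : ℤ) * N * j.val := by
  have hN := natCast_ne_zero_of_not_dvd hqN
  have h : (q : ℤ) ∣ 1 - ((((N : ZMod q) * j)⁻¹ : ZMod q).val : ℤ) * N * j.val := by
    rw [← ZMod.intCast_zmod_eq_zero_iff_dvd]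
    push_cast
    rw [ZMod.natCast_zmod_val, ZMod.natCast_zmod_val, mul_assoc,
      inv_mul_cancel₀ (mul_ne_zero hN hj), sub_self]
  obtain ⟨e, he⟩ := h
  exact ⟨e, he.symm⟩

/-- `γ_j = ((1 − k N j)/q, k; −N j, q)`, `k = (N j)⁻¹ mod q` -/
noncomputable def gamU (hqN : ¬ q ∣ N) (j : ZMod q) (hj : j ≠ 0) : SL(2, ℤ) :=
  mkZ (exists_gamU hqN j hj).choose ((((N : ZMod q) * j)⁻¹ : ZMod q).val : ℤ)
    (-((N : ℤ) * j.val)) (q : ℤ)
    (by
      have := (exists_gamU hqN j hj).choose_spec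
      linear_combination this)

theorem gamU_mem (hqN : ¬ q ∣ N) (j : ZMod q) (hj : j ≠ 0) : gamU hqN j hj ∈ Gamma0 N :=
  mem_Gamma0_of_dvd (by simp [gamU])

/-- the `Γ₀(N)`-parts of the coset comparison -/
noncomputable def gamUFun (hqN : ¬ q ∣ N) :
    (Unit × (Unit × ZMod q)) ⊕ Unit → Gamma0 N
  | Sum.inl p => if hj : p.2.2 = 0 then 1 else ⟨gamU hqN p.2.2 hj, gamU_mem hqN p.2.2 hj⟩
  | Sum.inr _ => 1

theorem tRep_zero (M : ℕ) : tRep M 0 = 1 := by
  ext i j
  fin_cases i <;> fin_cases j <;> simp [tRep, mkZ]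

/-- the matrix identity behind `α_k δ = γ_j δ² t_j` -/
theorem heckeMatrix_mul_dlt_eq (q N k jj : ℕ) (e : ℤ) (hq : q ≠ 0)
    (h : (q : ℤ) * e = 1 - k * N * jj)
    (hdet : e * (q : ℤ) - (k : ℤ) * (-((N : ℤ) * jj)) = 1) :
    heckeMatrix q k * heckeDiagMatrix q
      = embR (mkZ e k (-((N : ℤ) * jj)) q hdet)
        * (heckeDiagMatrix q * (heckeDiagMatrix q * embR (tRep (N * q) jj))) := by
  have hR : (q : ℝ) * (e : ℝ) = 1 - (k : ℝ) * N * jj := by exact_mod_cast h
  ext a b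
  simp only [Matrix.GeneralLinearGroup.coe_mul, Matrix.mul_apply, Fin.sum_univ_two]
  fin_cases a <;> fin_cases b <;>
    simp [hq, tRep, mkZ]
  · linear_combination (-(q : ℝ)) * hR
  · ring

/-- `α_k δ = γ_j δ² t_j` -/
theorem heckeRep_mul_dlt_eq (hqN : ¬ q ∣ N) (j : ZMod q) (hj : j ≠ 0) :
    heckeRep q ((((N : ZMod q) * j)⁻¹ : ZMod q) : OnePoint (ZMod q)) * dlt q
      = embR (gamU hqN j hj) * (dlt q * (dlt q * embR (tRep (N * q) j.val))) := by
  rw [heckeRep_coe]
  exact heckeMatrix_mul_dlt_eq q N _ _ _ q_ne_zero' (exists_gamU hqN j hj).choose_spec _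

/-- **(U)** `cores2 ∘ res_δ' ∘ res_δ + res = res_δ ∘ T_q` on `Hom(Γ₀(N), A) → Hom(Γ₀(N q), A)`. -/
theorem cores2_resD_resD_add_res [NeZero (N * q)] (hqN : ¬ q ∣ N) {A : Type*} [AddCommGroup A]
    (φ : Additive (Gamma0 N) →+ A) :
    cores2 A (dvd_mul_left q N) (resD A (N * q) q (resD A N q φ)) + res A N q φ
      = resD A N q (cohT hqN A φ) := by
  have hbij : Function.Bijective (fU N q) :=
    (Fintype.bijective_iff_injective_and_card _).mpr ⟨fU_injective hqN, card_uIdx⟩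
  have h := CosetSys.op_eq_of_cosets (sumSys (uLSys (N := N) (q := q)) (resZSys N q)) (uRSys hqN)
    embR_injective (uRSys_distinct hqN) (Equiv.ofBijective _ hbij) 1
    (fun x => by rw [one_mul, mul_one]) (gamUFun hqN) ?_ φ
  · rw [sumSys_op, resZSys_op] at h
    unfold uRSys uLSys at h
    rw [CosetSys.op_comp, CosetSys.op_comp, CosetSys.op_comp, heckeSys_op] at h
    exact h.symm
  · rintro (⟨⟨⟩, ⟨⟩, j⟩ | ⟨⟩)
    · obtain ⟨j, rfl⟩ : ∃ j' : ZMod q, j' = j := ⟨j, rfl⟩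
      by_cases hj : j = 0
      · subst hj
        show heckeRep q (if (0 : ZMod q) = 0 then ∞ else _) * dlt q
          = 1 * embR ((gamUFun hqN (Sum.inl ((), (), (0 : ZMod q))) : Gamma0 N) : SL(2, ℤ))
            * (dlt q * (dlt q * embR (tRep (N * q) (0 : ZMod q).val)))
        rw [if_pos rfl, heckeRep_infty, ZMod.val_zero, tRep_zero, map_one, mul_one, one_mul]
        have : gamUFun hqN (Sum.inl ((), (), (0 : ZMod q))) = 1 := by
          unfold gamUFun
          exact dif_pos rfl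
        rw [this, Subgroup.coe_one, map_one, one_mul]
      · show heckeRep q (if j = 0 then ∞ else _) * dlt q
          = 1 * embR ((gamUFun hqN (Sum.inl ((), (), j)) : Gamma0 N) : SL(2, ℤ))
            * (dlt q * (dlt q * embR (tRep (N * q) j.val)))
        rw [if_neg hj, one_mul]
        have : gamUFun hqN (Sum.inl ((), (), j)) = ⟨gamU hqN j hj, gamU_mem hqN j hj⟩ := by
          unfold gamUFun
          exact dif_neg hj
        rw [this]
        exact heckeRep_mul_dlt_eq hqN j hj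
    · show heckeRep q (((0 : ZMod q)) : OnePoint (ZMod q)) * dlt q
        = 1 * embR ((1 : Gamma0 N) : SL(2, ℤ)) * zq q
      rw [Subgroup.coe_one, map_one, one_mul, one_mul]
      exact heckeRep_zero_mul_dlt

end Fermat.Agent.GE9.Adj3
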