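/-
S59 PRE-WORK / GE9-ETA-ADJ3 (helper2), file 5: **the Gram matrix of the three degeneracy maps**

    α₃ = (α₀, α₁, α₂) = (res' ∘ res, res' ∘ res_δ, res_δ' ∘ res_δ) : Λ_N³ → Λ_{N q²}     (q ∤ N)

for the unimodular cup forms `lamB` is Wiles' matrix `A3op q T_q`
(`GE9/Eta/Three`): for all `u w : Fin 3 → Λ_N`,

    ⟨α₃ u, α₃ w⟩_{N q²} = ∑ m n, ⟨u m, (A3op q T_q) m n (w n)⟩_N .

This is the binder `hadj` of `GE9/Eta/Three.card_congMod_growth_three` over `ℤ`.

Inputs: inner adjointness at `(N, q)` (`GM/Asm/DAsm`) and at `(N q, q)` (`Sys2`), (O1), (O2) and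
skew-symmetry (`GM/Theta/Outer`), the `U_q^t`-identity (`Uq`) and the Atkin–Lehner isometry at level
`N q²` (`AL2`).
-/
import Fermat.Agent.GE9.Adj3.Uq
import Fermat.Agent.GE9.Adj3.AL2
import Fermat.Agent.GE9.Eta.Three

set_option autoImplicit false
set_option linter.unusedSectionVars false

open scoped MatrixGroups
open CongruenceSubgroup Matrix Matrix.SpecialLinearGroup ModularCurve.Period
open Fermat.Agent.S16_helper49 Fermat.Agent.GM.Amalgam Fermat.Agent.GM.B Fermat.Agent.GM.Bridge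
  Fermat.Agent.GM.PD Fermat.Agent.GJ.J2.Lat Fermat.Agent.GM.Asm
open Fermat.Agent.GM.Theta.Outer

namespace Fermat.Agent.GE9.Adj3

variable {N q : ℕ} [Fact q.Prime] [NeZero N] [NeZero (N * q)] [NeZero (N * q * q)]

/-! ### the three degeneracy maps -/

/-- `α₀ = res' ∘ res` -/
noncomputable def al0 (N q : ℕ) [Fact q.Prime] : Lam N →+ Lam (N * q * q) :=
  (resP ℤ (N * q) q).comp (resP ℤ N q)

/-- `α₁ = res' ∘ res_δ` -/
noncomputable def al1 (N q : ℕ) [Fact q.Prime] : Lam N →+ Lam (N * q * q) :=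
  (resP ℤ (N * q) q).comp (resDP ℤ N q)

/-- `α₂ = res_δ' ∘ res_δ` -/
noncomputable def al2 (N q : ℕ) [Fact q.Prime] : Lam N →+ Lam (N * q * q) :=
  (resDP ℤ (N * q) q).comp (resDP ℤ N q)

/-- `T_q` on `Λ_N` -/
noncomputable def tq (hqN : ¬ q ∣ N) : Lam N →+ Lam N := heckeP ℤ hqN

section Ops

variable (hqN : ¬ q ∣ N)

theorem cores2P_resP (u : Lam (N * q)) :
    cores2P ℤ (dvd_mul_left q N) (resP ℤ (N * q) q u) = q • u :=
  Subtype.ext (by
    rw [cores2P_coe, resP_coe, cores2_comp_res]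
    rfl)

theorem cores2P_al2 (y : Lam N) :
    cores2P ℤ (dvd_mul_left q N) (al2 N q y) = resDP ℤ N q (tq hqN y) - resP ℤ N q y := by
  rw [eq_sub_iff_add_eq]
  apply Subtype.ext
  have h := cores2_resD_resD_add_res hqN (A := ℤ) y.1
  rw [Submodule.coe_add, cores2P_coe, resP_coe, resDP_coe]
  show cores2 ℤ (dvd_mul_left q N) (resD ℤ (N * q) q (resD ℤ N q y.1)) + res ℤ N q y.1
    = resD ℤ N q ((tq hqN y : Lam N) : Additive (Gamma0 N) →+ ℤ)
  rw [h]
  congr 1

theorem coresP_resP (x : Lam N) : coresP ℤ hqN (resP ℤ N q x) = (q + 1) • x :=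
  Subtype.ext (by rw [coresP_coe, resP_coe, cores_comp_res]; rfl)

theorem coresP_resDP (x : Lam N) : coresP ℤ hqN (resDP ℤ N q x) = tq hqN x :=
  Subtype.ext (by rw [coresP_coe, resDP_coe, cores_comp_resD]; exact (heckeP_coe hqN x).symm)

theorem coresDP_resP (x : Lam N) : coresDP ℤ hqN (resP ℤ N q x) = tq hqN x :=
  Subtype.ext (by rw [coresDP_coe, resP_coe, coresD_comp_res]; exact (heckeP_coe hqN x).symm)

theorem coresDP_resDP (x : Lam N) : coresDP ℤ hqN (resDP ℤ N q x) = (q + 1) • x :=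
  Subtype.ext (by rw [coresDP_coe, resDP_coe, coresD_comp_resD]; rfl)

end Ops

/-! ### the entries of the Gram matrix -/

section Gram

variable (hqN : ¬ q ∣ N)

include hqN

local notation "B0" => lamB N
local notation "B1" => lamB (N * q)
local notation "B2" => lamB (N * q * q)

theorem lamB_tq (x y : Lam N) : B0 (tq hqN x) y = B0 x (tq hqN y) := lamB_heckeP hqN x y

theorem gram00 (x y : Lam N) : B2 (al0 N q x) (al0 N q y) = (q * (q + 1) : ℤ) * B0 x y := by
  show B2 (resP ℤ (N * q) q (resP ℤ N q x)) (resP ℤ (N * q) q (resP ℤ N q y)) = _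
  rw [lamB_resP_cores2P (dvd_mul_left q N), cores2P_resP, lamB_resP_coresP hqN, map_nsmul,
    coresP_resP, map_nsmul, map_nsmul, smul_smul, nsmul_eq_mul]
  push_cast
  ring

theorem gram01 (x y : Lam N) : B2 (al0 N q x) (al1 N q y) = (q : ℤ) * B0 x (tq hqN y) := by
  show B2 (resP ℤ (N * q) q (resP ℤ N q x)) (resP ℤ (N * q) q (resDP ℤ N q y)) = _
  rw [lamB_resP_cores2P (dvd_mul_left q N), cores2P_resP, lamB_resP_coresP hqN, map_nsmul,
    coresP_resDP, map_nsmul, nsmul_eq_mul]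

theorem gram02 (x y : Lam N) :
    B2 (al0 N q x) (al2 N q y) = B0 x (tq hqN (tq hqN y)) - ((q : ℤ) + 1) * B0 x y := by
  show B2 (resP ℤ (N * q) q (resP ℤ N q x)) (al2 N q y) = _
  rw [lamB_resP_cores2P (dvd_mul_left q N), cores2P_al2 hqN, map_sub, lamB_resP_coresP hqN,
    lamB_resP_coresP hqN, coresP_resDP, coresP_resP, map_nsmul, nsmul_eq_mul]
  push_cast
  ring

theorem gram11 (x y : Lam N) : B2 (al1 N q x) (al1 N q y) = (q * (q + 1) : ℤ) * B0 x y := by
  show B2 (resP ℤ (N * q) q (resDP ℤ N q x)) (resP ℤ (N * q) q (resDP ℤ N q y)) = _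
  rw [lamB_resP_cores2P (dvd_mul_left q N), cores2P_resP, lamB_O1 hqN, map_nsmul,
    coresDP_resDP, map_nsmul, map_nsmul, smul_smul, nsmul_eq_mul]
  push_cast
  ring

theorem gram12 (x y : Lam N) : B2 (al1 N q x) (al2 N q y) = (q : ℤ) * B0 x (tq hqN y) := by
  show B2 (resP ℤ (N * q) q (resDP ℤ N q x)) (al2 N q y) = _
  rw [lamB_resP_cores2P (dvd_mul_left q N), cores2P_al2 hqN, map_sub, lamB_O1 hqN,
    lamB_O1 hqN, coresDP_resDP, coresDP_resP, map_nsmul, nsmul_eq_mul]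
  push_cast
  ring

theorem gram22 (x y : Lam N) : B2 (al2 N q x) (al2 N q y) = (q * (q + 1) : ℤ) * B0 x y := by
  show B2 (resDP ℤ (N * q) q (resDP ℤ N q x)) (resDP ℤ (N * q) q (resDP ℤ N q y)) = _
  rw [lamB_alpha2_alpha2 hqN]
  exact gram00 hqN x y

theorem gram10 (x y : Lam N) : B2 (al1 N q x) (al0 N q y) = (q : ℤ) * B0 x (tq hqN y) := by
  rw [lamB_skew (N * q * q), gram01 hqN, ← lamB_tq, lamB_skew N]
  ring

theorem gram20 (x y : Lam N) :
    B2 (al2 N q x) (al0 N q y) = B0 x (tq hqN (tq hqN y)) - ((q : ℤ) + 1) * B0 x y := by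
  rw [lamB_skew (N * q * q), gram02 hqN, ← lamB_tq, ← lamB_tq,
    lamB_skew N (tq hqN (tq hqN y)) x, lamB_skew N y x]
  ring

theorem gram21 (x y : Lam N) : B2 (al2 N q x) (al1 N q y) = (q : ℤ) * B0 x (tq hqN y) := by
  rw [lamB_skew (N * q * q), gram12 hqN, ← lamB_tq, lamB_skew N]
  ring

end Gram

/-! ### the assembled statement -/

section Main

variable (hqN : ¬ q ∣ N)

/-- `α₃ : Λ_N³ → Λ_{N q²}` as a `ℤ`-linear map -/
noncomputable def alpha3 (N q : ℕ) [Fact q.Prime] : (Fin 3 → Lam N) →ₗ[ℤ] Lam (N * q * q) :=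
  (al0 N q).toIntLinearMap.comp (LinearMap.proj 0)
    + (al1 N q).toIntLinearMap.comp (LinearMap.proj 1)
    + (al2 N q).toIntLinearMap.comp (LinearMap.proj 2)

theorem alpha3_apply (u : Fin 3 → Lam N) :
    alpha3 N q u = al0 N q (u 0) + al1 N q (u 1) + al2 N q (u 2) := rfl

/-- `T_q` as a `ℤ`-linear endomorphism of `Λ_N` -/
noncomputable def tqLin : Lam N →ₗ[ℤ] Lam N := (tq hqN).toIntLinearMap

/-- **the Gram matrix of `α₃` is `A3op q T_q`** — the binder `hadj` of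
`GE9/Eta/Three.card_congMod_growth_three`, over `ℤ`. -/
theorem lamB_alpha3 (u w : Fin 3 → Lam N) :
    lamB (N * q * q) (alpha3 N q u) (alpha3 N q w)
      = ∑ m, ∑ n, lamB N (u m)
          (Fermat.Agent.GE9.Eta.A3op (q : ℤ) (tqLin hqN) m n (w n)) := by
  rw [alpha3_apply, alpha3_apply]
  simp only [map_add, LinearMap.add_apply]
  rw [gram00 hqN, gram01 hqN, gram02 hqN, gram10 hqN, gram11 hqN, gram12 hqN, gram20 hqN,
    gram21 hqN, gram22 hqN]
  simp only [Fin.sum_univ_three, Fermat.Agent.GE9.Eta.A3op, Matrix.cons_val_zero,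
    Matrix.cons_val_one, Matrix.cons_val_two, Matrix.head_cons, Matrix.tail_cons,
    LinearMap.sub_apply, LinearMap.smul_apply, LinearMap.id_apply, Module.End.mul_apply,
    map_sub, map_smul, smul_eq_mul]
  show _ = _
  simp only [tqLin, AddMonoidHom.coe_toIntLinearMap]
  ring

/-- `T_q = latT N q` (the lattice operator of `GJ/J2/Lattice`) -/
theorem tqLin_eq_latT (hq : q.Prime) : tqLin hqN = latT N (⟨q, hq⟩ : Nat.Primes) := by
  refine LinearMap.ext fun x => ?_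
  have : Fact (((⟨q, hq⟩ : Nat.Primes) : ℕ)).Prime := ⟨hq⟩
  exact heckeP_eq_latT_primes (⟨q, hq⟩ : Nat.Primes) hqN x

/-- the same with `latT N q` -/
theorem lamB_alpha3_latT (hqN : ¬ q ∣ N) (hq : q.Prime) (u w : Fin 3 → Lam N) :
    lamB (N * q * q) (alpha3 N q u) (alpha3 N q w)
      = ∑ m, ∑ n, lamB N (u m)
          (Fermat.Agent.GE9.Eta.A3op (q : ℤ) (latT N (⟨q, hq⟩ : Nat.Primes)) m n (w n)) := by
  rw [← tqLin_eq_latT hqN hq]
  exact lamB_alpha3 hqN u w

end Main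

end Fermat.Agent.GE9.Adj3
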