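/-
S59 PRE-WORK / GE9-ETA-ADJ3 (helper2), file 1: a coset system from the relation alone.

`CosetSys.ofDistinct` : a finite family `a i ∈ G` with `a i * g = c g i * a (σ g i)` (`g ∈ Γ₂`,
`c g i ∈ Γ₁`, `σ g i` a FUNCTION) whose cosets `Γ₁ a i` are pairwise distinct is a coset system: the
`σ g` are permutations and the cocycle laws hold automatically.
-/
import Fermat.Agent.GM.B.System

set_option autoImplicit false
set_option linter.unusedSectionVars false

namespace Fermat.Agent.GE9.Adj3

open Fermat.Agent.GM.B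

variable {H G : Type*} [Group H] [Group G] {emb : H →* G} {Γ₁ Γ₂ : Subgroup H}

section

variable (hemb : Function.Injective emb) {ι : Type} [Fintype ι] (a : ι → G)
  (σ : Γ₂ → ι → ι) (c : Γ₂ → ι → Γ₁)
  (rel : ∀ (g : Γ₂) (i : ι), a i * emb (g : H) = emb ((c g i : Γ₁) : H) * a (σ g i))
  (hd : ∀ (i j : ι) (γ : Γ₁), a i = emb ((γ : Γ₁) : H) * a j → i = j)

include rel hd in
theorem ofDistinct_σ_mul (g h : Γ₂) (i : ι) : σ (g * h) i = σ h (σ g i) := by
  have h1 := rel (g * h) i
  rw [Subgroup.coe_mul, map_mul, ← mul_assoc, rel g i, mul_assoc, rel h (σ g i), ← mul_assoc] at h1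
  -- `c g i * c h (σ g i) * a (σ h (σ g i)) = c (g h) i * a (σ (g h) i)`
  refine hd _ _ ((c (g * h) i)⁻¹ * (c g i * c h (σ g i))) ?_
  rw [Subgroup.coe_mul, Subgroup.coe_inv, Subgroup.coe_mul, map_mul, map_inv, map_mul, mul_assoc,
    h1, ← mul_assoc, inv_mul_cancel, one_mul]

include hemb rel hd in
theorem ofDistinct_c_mul (g h : Γ₂) (i : ι) : c (g * h) i = c g i * c h (σ g i) := by
  have h1 := rel (g * h) i
  rw [Subgroup.coe_mul, map_mul, ← mul_assoc, rel g i, mul_assoc, rel h (σ g i), ← mul_assoc,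
    ofDistinct_σ_mul a σ c rel hd g h i] at h1
  have h2 := mul_right_cancel h1
  rw [← map_mul] at h2
  exact (Subtype.ext (hemb h2)).symm

include rel hd in
theorem ofDistinct_σ_one (i : ι) : σ 1 i = i := by
  have h1 := rel 1 i
  rw [Subgroup.coe_one, map_one, mul_one] at h1
  exact (hd _ _ _ h1).symm

/-- **a coset system from the relation and the distinctness of the cosets**. -/
def ofDistinct : CosetSys emb Γ₁ Γ₂ where
  ι := ι
  a := a
  σ g :=
    { toFun := σ g
      invFun := σ g⁻¹
      left_inv := fun i => by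
        rw [← ofDistinct_σ_mul a σ c rel hd, mul_inv_cancel, ofDistinct_σ_one a σ c rel hd]
      right_inv := fun i => by
        rw [← ofDistinct_σ_mul a σ c rel hd, inv_mul_cancel, ofDistinct_σ_one a σ c rel hd] }
  c := c
  rel := rel
  hσ g h i := ofDistinct_σ_mul a σ c rel hd g h i
  hc g h i := ofDistinct_c_mul hemb a σ c rel hd g h i

theorem ofDistinct_distinct : (ofDistinct hemb a σ c rel hd).Distinct := hd

@[simp] theorem ofDistinct_a (i : ι) : (ofDistinct hemb a σ c rel hd).a i = a i := rfl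

@[simp] theorem ofDistinct_c (g : Γ₂) (i : ι) : (ofDistinct hemb a σ c rel hd).c g i = c g i := rfl

@[simp] theorem ofDistinct_σ (g : Γ₂) (i : ι) : (ofDistinct hemb a σ c rel hd).σ g i = σ g i := rfl

end

end Fermat.Agent.GE9.Adj3
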